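import Mathlib
import Fermat.Agent.S49.QCoeff

/-!
# S23, package R4: the `q`-coefficient functionals are `a₁ ∘ t` with `t` in the Hecke algebra
-/

set_option autoImplicit false

open CongruenceSubgroup ModularFormClass UpperHalfPlane

namespace Fermat.Agent.S23

open Fermat.Agent.S49

variable {N : ℕ} [NeZero N] {k : ℤ}

omit [NeZero N] in
theorem coeff_qCoeff_sub_zsmul (f g : CuspForm (Gamma0 N) k) (c : ℤ) (n : ℕ) :
    qCoeff (⇑(f - c • g)) n = qCoeff (⇑f) n - (c : ℂ) * qCoeff (⇑g) n := by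
  have : f - c • g = f + (-c) • g := by rw [neg_zsmul, sub_eq_add_neg]
  rw [this, qCoeff_add, qCoeff_zsmul]
  push_cast
  ring

/-- Every `q`-coefficient functional `aₙ` (`n ≥ 1`) is `a₁ ∘ t` for some `t` in the full Hecke
algebra (weight `k ≥ 1`). -/
theorem exists_hecke_qCoeff (N : ℕ) [NeZero N] (k : ℤ) (hk : 1 ≤ k) (n : ℕ) (hn : 0 < n) :
    ∃ t ∈ CuspForm.heckeAlgebra N k ∅, ∀ f : CuspForm (Gamma0 N) k,
      qCoeff (⇑(t f)) 1 = qCoeff (⇑f) n := by
  induction n using Nat.strong_induction_on with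
  | _ n ih =>
    rcases Nat.lt_or_ge 1 n with h1 | h1
    · -- `n = m * ℓ`, `ℓ` prime
      set ℓ := n.minFac with hℓdef
      have hℓ : ℓ.Prime := Nat.minFac_prime (by omega)
      set m := n / ℓ with hmdef
      have hnm : n = m * ℓ := (Nat.div_mul_cancel (Nat.minFac_dvd n)).symm
      have hmpos : 0 < m := by
        rcases Nat.eq_zero_or_pos m with h0 | h0
        · rw [h0, zero_mul] at hnm; omega
        · exact h0
      have hmlt : m < n := by
        rw [hnm]
        exact (Nat.lt_mul_iff_one_lt_right hmpos).mpr hℓ.one_lt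
      obtain ⟨tm, htm, hm⟩ := ih m hmlt hmpos
      by_cases hℓN : ℓ ∣ N
      · -- `U_ℓ`
        refine ⟨tm * CuspForm.heckeULin k hℓN,
          Subalgebra.mul_mem _ htm (CuspForm.heckeULin_mem_heckeAlgebra hℓ hℓN (by simp)), ?_⟩
        intro f
        rw [Module.End.mul_apply, hm, qCoeff_heckeULin hℓ hℓN, ModularForm.coeffHeckeU_apply,
          ← hnm]
      · -- `T_ℓ`
        have hTmem : CuspForm.heckeTLin k hℓ hℓN ∈ CuspForm.heckeAlgebra N k ∅ :=
          CuspForm.heckeTLin_mem_heckeAlgebra hℓ hℓN (by simp)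
        by_cases hℓm : ℓ ∣ m
        · have hm'pos : 0 < m / ℓ := Nat.div_pos (Nat.le_of_dvd hmpos hℓm) hℓ.pos
          have hm'lt : m / ℓ < n := lt_of_le_of_lt (Nat.div_le_self _ _) hmlt
          obtain ⟨tm', htm', hm'⟩ := ih (m / ℓ) hm'lt hm'pos
          refine ⟨tm * CuspForm.heckeTLin k hℓ hℓN - ((ℓ ^ (k - 1).toNat : ℕ) : ℤ) • tm',
            Subalgebra.sub_mem _ (Subalgebra.mul_mem _ htm hTmem)
              (Subalgebra.zsmul_mem _ htm' _), ?_⟩
          intro f
          have hpow : ((ℓ : ℂ)) ^ (k - 1) = (((ℓ ^ (k - 1).toNat : ℕ) : ℤ) : ℂ) := by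
            have : k - 1 = ((k - 1).toNat : ℤ) := (Int.toNat_of_nonneg (by omega)).symm
            rw [this, zpow_natCast]
            simp
          rw [LinearMap.sub_apply, Module.End.mul_apply, LinearMap.smul_apply,
            coeff_qCoeff_sub_zsmul, hm, qCoeff_heckeTLin hℓ hℓN,
            ModularForm.coeffHeckeT_of_dvd k hℓm, hm', ← hnm, hpow]
          ring
        · refine ⟨tm * CuspForm.heckeTLin k hℓ hℓN, Subalgebra.mul_mem _ htm hTmem, ?_⟩
          intro f
          rw [Module.End.mul_apply, hm, qCoeff_heckeTLin hℓ hℓN,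
            ModularForm.coeffHeckeT_of_not_dvd k hℓm, ← hnm]
    · -- `n = 1`
      have : n = 1 := by omega
      subst this
      exact ⟨1, Subalgebra.one_mem _, fun f => rfl⟩

/-- The pairing `(t, f) ↦ a₁(t f)` is non-degenerate in `f`. -/
theorem eq_zero_of_a1 (N : ℕ) [NeZero N] (k : ℤ) (hk : 1 ≤ k) (f : CuspForm (Gamma0 N) k)
    (h : ∀ t ∈ CuspForm.heckeAlgebra N k ∅, qCoeff (⇑(t f)) 1 = 0) : f = 0 := by
  refine eq_zero_of_qCoeff f fun n => ?_
  rcases Nat.eq_zero_or_pos n with rfl | hn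
  · exact qCoeff_zero_idx f
  · obtain ⟨t, ht, htf⟩ := exists_hecke_qCoeff N k hk n hn
    rw [← htf f, h t ht]

/-- If all `a₁(t f)`, `t` in the Hecke algebra, are integers, then `f` has integral
`q`-expansion. -/
theorem mem_intLattice_of_a1 (N : ℕ) [NeZero N] (k : ℤ) (hk : 1 ≤ k) (f : CuspForm (Gamma0 N) k)
    (h : ∀ t ∈ CuspForm.heckeAlgebra N k ∅, ∃ m : ℤ, qCoeff (⇑(t f)) 1 = (m : ℂ)) :
    f ∈ CuspForm.intLattice N k := by
  refine mem_intLattice_of_qCoeff fun n => ?_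
  rcases Nat.eq_zero_or_pos n with rfl | hn
  · exact ⟨0, by rw [qCoeff_zero_idx]; simp⟩
  · obtain ⟨t, ht, htf⟩ := exists_hecke_qCoeff N k hk n hn
    obtain ⟨m, hm⟩ := h t ht
    exact ⟨m, by rw [← htf f, hm]⟩

end Fermat.Agent.S23
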