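import Mathlib
import Fermat.Agent.S21.Conj
import Fermat.Agent.S49.QCoeff

/-!
# S23, package R2: the conjugation `f ↦ f^c` commutes with the Hecke algebra (weight 2)
-/

set_option autoImplicit false

open CongruenceSubgroup ModularFormClass UpperHalfPlane
open scoped ComplexConjugate

namespace Fermat.Agent.S23

open Fermat.Agent.S49 Fermat.Agent.S21

variable {N : ℕ} [NeZero N]

omit [NeZero N] in
/-- Two cusp forms with the same `q`-coefficients are equal. -/
theorem ext_of_qCoeff {k : ℤ} (f g : CuspForm (Gamma0 N) k)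
    (h : ∀ n, qCoeff (⇑f) n = qCoeff (⇑g) n) : f = g := by
  have h0 : f - g = 0 := by
    refine eq_zero_of_qCoeff (f - g) fun n => ?_
    have : f - g = f + (-1 : ℤ) • g := by rw [neg_one_zsmul, sub_eq_add_neg]
    rw [this, qCoeff_add, qCoeff_zsmul, h n]
    push_cast
    ring
  exact sub_eq_zero.mp h0

/-- `conj (q(-conj τ)) = q(τ)`. -/
theorem conj_qParam_J_smul (τ : ℍ) :
    conj (Function.Periodic.qParam 1 ((J • τ : ℍ) : ℂ)) = Function.Periodic.qParam 1 (τ : ℂ) := by
  rw [coe_J_smul]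
  simp only [Function.Periodic.qParam]
  rw [← Complex.exp_conj]
  congr 1
  simp only [map_mul, map_div₀, map_neg, Complex.conj_conj, Complex.conj_I, map_ofNat,
    Complex.conj_ofReal]
  ring

/-- The `q`-coefficients of `f^c` are the conjugates of those of `f`. -/
theorem qCoeff_conjCF (f : CuspForm (Gamma0 N) 2) (n : ℕ) :
    qCoeff (⇑(conjCF N f)) n = conj (qCoeff (⇑f) n) := by
  have h1 := CongruenceSubgroup.one_mem_strictPeriods_Gamma0 N
  have : Fact (IsCusp OnePoint.infty (Gamma0 N : Subgroup (GL (Fin 2) ℝ))) :=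
    ⟨Subgroup.isCusp_of_mem_strictPeriods one_pos h1⟩
  unfold qCoeff
  symm
  refine ModularFormClass.qExpansion_coeff_unique (c := fun m => conj ((qExpansion 1 ⇑f).coeff m))
    one_pos h1 (f := conjCF N f) (fun τ => ?_) n
  have hs := ModularForm.hasSum_qExpansion (f := f) one_pos h1 (J • τ)
  have hs' := (Complex.hasSum_conj' ).mpr hs
  rw [conjCF_apply]
  convert hs' using 2 with m
  rw [smul_eq_mul, map_mul, map_pow, conj_qParam_J_smul]

theorem conjCF_heckeTLin {ℓ : ℕ} (hℓ : ℓ.Prime) (hℓN : ¬ ℓ ∣ N) (f : CuspForm (Gamma0 N) 2) :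
    conjCF N (CuspForm.heckeTLin 2 hℓ hℓN f) = CuspForm.heckeTLin 2 hℓ hℓN (conjCF N f) := by
  refine ext_of_qCoeff _ _ fun n => ?_
  rw [qCoeff_conjCF, qCoeff_heckeTLin hℓ hℓN, qCoeff_heckeTLin hℓ hℓN,
    ModularForm.coeffHeckeT_apply, ModularForm.coeffHeckeT_apply]
  simp only [qCoeff_conjCF]
  split_ifs <;> simp

theorem conjCF_heckeULin {q : ℕ} (hq : q.Prime) (hqN : q ∣ N) (f : CuspForm (Gamma0 N) 2) :
    conjCF N (CuspForm.heckeULin 2 hqN f) = CuspForm.heckeULin 2 hqN (conjCF N f) := by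
  refine ext_of_qCoeff _ _ fun n => ?_
  rw [qCoeff_conjCF, qCoeff_heckeULin hq hqN, qCoeff_heckeULin hq hqN,
    ModularForm.coeffHeckeU_apply, ModularForm.coeffHeckeU_apply, qCoeff_conjCF]

theorem conjCF_zsmul (m : ℤ) (f : CuspForm (Gamma0 N) 2) :
    conjCF N (m • f) = m • conjCF N f := by
  rw [← Int.cast_smul_eq_zsmul ℂ m f, conjCF_smul, ← Int.cast_smul_eq_zsmul ℂ m (conjCF N f)]
  simp

/-- The conjugation commutes with every element of the Hecke algebra. -/
theorem conjCF_heckeAlgebra {S : Set ℕ} {t : Module.End ℂ (CuspForm (Gamma0 N) 2)}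
    (ht : t ∈ CuspForm.heckeAlgebra N 2 S) (f : CuspForm (Gamma0 N) 2) :
    conjCF N (t f) = t (conjCF N f) := by
  unfold CuspForm.heckeAlgebra at ht
  induction ht using Algebra.adjoin_induction generalizing f with
  | mem x hx =>
    rcases hx with ⟨ℓ, hℓ, hℓN, -, rfl⟩ | ⟨q, hqN, hq, -, rfl⟩
    · exact conjCF_heckeTLin hℓ hℓN f
    · exact conjCF_heckeULin hq hqN f
  | algebraMap r =>
    have h : ∀ g : CuspForm (Gamma0 N) 2,
        (algebraMap ℤ (Module.End ℂ (CuspForm (Gamma0 N) 2)) r) g = r • g := by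
      intro g; simp
    rw [h, h, conjCF_zsmul]
  | add x y _ _ hx hy =>
    rw [LinearMap.add_apply, conjCF_add, hx, hy, LinearMap.add_apply]
  | mul x y _ _ hx hy =>
    rw [Module.End.mul_apply, hx, hy, Module.End.mul_apply]

end Fermat.Agent.S23
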