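/-
S23, package R1: abstract lattice lemma (pure linear algebra, Mathlib only).

Main results (namespace `Fermat.Agent.S23.LatticeAlg`):
* `real_coeff_eq_zero`   : ℤ-independent integer vectors are ℝ-independent.
* `span_integral_eq_top` : core lemma with a finite family of functionals.
-/
import Mathlib

set_option autoImplicit false

open scoped ComplexConjugate

namespace Fermat.Agent.S23.LatticeAlg

/-- A `ℂ`-module is additively torsion free. -/
theorem isAddTorsionFree_of_complex (M : Type*) [AddCommGroup M] [Module ℂ M] :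
    IsAddTorsionFree M where
  nsmul_right_injective n hn a b hab := by
    have h : (n : ℂ) • a = (n : ℂ) • b := by
      simp only [Nat.cast_smul_eq_nsmul]
      exact hab
    exact smul_right_injective _ (Nat.cast_ne_zero.mpr hn) h

/-- (G1), rational step: `ℤ`-independent integer vectors are `ℚ`-independent. -/
theorem rat_coeff_eq_zero {ι κ : Type*} [Fintype ι] (v : ι → κ → ℤ)
    (hv : ∀ n : ι → ℤ, (∀ k, ∑ i, n i * v i k = 0) → n = 0)
    (y : ι → ℚ) (hy : ∀ k, ∑ i, y i * (v i k : ℚ) = 0) : y = 0 := by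
  obtain ⟨b, hb⟩ := IsLocalization.exist_integer_multiples_of_finite (nonZeroDivisors ℤ) y
  choose n hn using hb
  have hb0 : ((b : ℤ) : ℚ) ≠ 0 := by
    have := nonZeroDivisors.coe_ne_zero b
    exact_mod_cast this
  have hn' : ∀ i, (n i : ℚ) = (b : ℤ) * y i := by
    intro i
    have := hn i
    simpa [Algebra.smul_def] using this
  have hn0 : n = 0 := by
    apply hv
    intro k
    have : ((∑ i, n i * v i k : ℤ) : ℚ) = 0 := by
      push_cast
      simp only [hn', mul_assoc]
      rw [← Finset.mul_sum, hy k, mul_zero]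
    exact_mod_cast this
  funext i
  have := hn' i
  rw [hn0] at this
  simp only [Pi.zero_apply, Int.cast_zero] at this
  rcases mul_eq_zero.mp this.symm with h | h
  · exact absurd h hb0
  · simpa using h

/-- (G1): `ℤ`-independent integer vectors are `ℝ`-independent. -/
theorem real_coeff_eq_zero {ι κ : Type*} [Fintype ι] (v : ι → κ → ℤ)
    (hv : ∀ n : ι → ℤ, (∀ k, ∑ i, n i * v i k = 0) → n = 0)
    (x : ι → ℝ) (hx : ∀ k, ∑ i, x i * (v i k : ℝ) = 0) : x = 0 := by
  funext i
  rw [Pi.zero_apply, ← Module.forall_dual_apply_eq_zero_iff ℚ (x i)]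
  intro φ
  have hy : (fun j => φ (x j)) = 0 := by
    apply rat_coeff_eq_zero v hv
    intro k
    have h1 : φ (∑ j, x j * (v j k : ℝ)) = 0 := by rw [hx k, map_zero]
    rw [map_sum] at h1
    rw [← h1]
    refine Finset.sum_congr rfl fun j _ => ?_
    have h2 : x j * (v j k : ℝ) = ((v j k : ℤ) : ℚ) • x j := by
      rw [Rat.smul_def]; push_cast; ring
    rw [h2, map_smul, smul_eq_mul, mul_comm]
  exact congrFun hy i


section Core

variable {V : Type*} [AddCommGroup V] [Module ℂ V]

/-- Evaluate `e a` on a `ℂ`-combination of operators whose transposes preserve the `ℤ`-span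
of the family `e`. -/
theorem eval_comb {ι : Type*} [Fintype ι] {m : ℕ} (e : Fin m → Module.Dual ℂ V)
    (B : ι → Module.End ℂ V) (ρ : ι → Fin m → Fin m → ℤ)
    (hρ : ∀ j a, (e a) ∘ₗ (B j) = ∑ b, ρ j a b • e b)
    (c : ι → ℂ) (a : Fin m) (f : V) :
    e a ((∑ j, c j • B j) f) = (∑ b, (∑ j, c j * (ρ j a b : ℂ)) • e b) f := by
  have h1 : ∀ j, e a (B j f) = ∑ b, (ρ j a b : ℂ) * e b f := by
    intro j
    have := LinearMap.congr_fun (hρ j a) f
    simp only [LinearMap.comp_apply, LinearMap.sum_apply, LinearMap.smul_apply] at this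
    rw [this]
    refine Finset.sum_congr rfl fun b _ => ?_
    rw [zsmul_eq_mul]
  simp only [LinearMap.sum_apply, LinearMap.smul_apply, map_sum, map_smul, smul_eq_mul, h1,
    Finset.mul_sum, Finset.sum_mul]
  rw [Finset.sum_comm]
  refine Finset.sum_congr rfl fun b _ => Finset.sum_congr rfl fun j _ => ?_
  ring

/-- Real independence of a `ℤ`-basis of `T`. -/
theorem real_indep_basis
    (T : Subalgebra ℤ (Module.End ℂ V))
    {ι : Type*} [Fintype ι] (b : Module.Basis ι ℤ T)
    {m : ℕ} (e : Fin m → Module.Dual ℂ V)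
    (he_stab : ∀ t ∈ T, ∀ a, ∃ ρ : Fin m → ℤ, (e a) ∘ₗ t = ∑ b, ρ b • e b)
    (he_sep : ∀ f : V, (∀ a, e a f = 0) → f = 0)
    (he_real : ∀ x : Fin m → ℝ, ∑ a, (x a : ℂ) • e a = 0 → x = 0)
    (x : ι → ℝ) (hx : ∑ j, (x j : ℂ) • ((b j : T) : Module.End ℂ V) = 0) : x = 0 := by
  choose ρ hρ using fun (j : ι) (a : Fin m) => he_stab (b j : T) (b j).2 a
  apply real_coeff_eq_zero (fun j (p : Fin m × Fin m) => ρ j p.1 p.2)
  · -- `ℤ`-independence of the integer matrices
    intro n hn
    have ht : ∑ j, n j • b j = 0 := by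
      apply Subtype.ext
      have hcoe : ((∑ j, n j • b j : T) : Module.End ℂ V)
          = ∑ j, (n j : ℂ) • ((b j : T) : Module.End ℂ V) := by
        have := map_sum T.val (fun j => n j • b j) Finset.univ
        simp only [Subalgebra.coe_val] at this
        rw [this]
        refine Finset.sum_congr rfl fun j _ => ?_
        rw [Int.cast_smul_eq_zsmul]
        rfl
      rw [hcoe]
      apply LinearMap.ext
      intro f
      apply he_sep
      intro a
      rw [eval_comb e (fun j => ((b j : T) : Module.End ℂ V)) ρ hρ]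
      have : ∀ b', (∑ j, (n j : ℂ) * (ρ j a b' : ℂ)) = 0 := by
        intro b'
        have := hn (a, b')
        simp only at this
        exact_mod_cast this
      simp [this]
    have := Fintype.linearIndependent_iff.mp b.linearIndependent n ht
    exact funext this
  · rintro ⟨a, b'⟩
    have h0 : (∑ b', (∑ j, (x j : ℂ) * (ρ j a b' : ℂ)) • e b') = 0 := by
      apply LinearMap.ext
      intro f
      rw [← eval_comb e (fun j => ((b j : T) : Module.End ℂ V)) ρ hρ, hx]
      simp
    have h1 := he_real (fun b' => ∑ j, x j * (ρ j a b' : ℝ)) (by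
      rw [← h0]
      refine Finset.sum_congr rfl fun b' _ => ?_
      push_cast
      rfl)
    exact congrFun h1 b'

/-- Complex independence of a `ℤ`-basis of `T`. -/
theorem complex_indep_basis
    (T : Subalgebra ℤ (Module.End ℂ V))
    {ι : Type*} [Fintype ι] (b : Module.Basis ι ℤ T)
    {m : ℕ} (e : Fin m → Module.Dual ℂ V)
    (he_stab : ∀ t ∈ T, ∀ a, ∃ ρ : Fin m → ℤ, (e a) ∘ₗ t = ∑ b, ρ b • e b)
    (he_sep : ∀ f : V, (∀ a, e a f = 0) → f = 0)
    (he_real : ∀ x : Fin m → ℝ, ∑ a, (x a : ℂ) • e a = 0 → x = 0)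
    (c : V →ₛₗ[starRingEnd ℂ] V) (hc_surj : Function.Surjective c)
    (hc_comm : ∀ t ∈ T, ∀ f, c (t f) = t (c f))
    (z : ι → ℂ) (hz : ∑ j, z j • ((b j : T) : Module.End ℂ V) = 0) : z = 0 := by
  have hconj : ∑ j, conj (z j) • ((b j : T) : Module.End ℂ V) = 0 := by
    apply LinearMap.ext
    intro g
    obtain ⟨g', rfl⟩ := hc_surj g
    have := congrArg c (LinearMap.congr_fun hz g')
    simp only [LinearMap.sum_apply, LinearMap.smul_apply, map_sum, map_smulₛₗ,
      LinearMap.zero_apply, map_zero] at this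
    simp only [LinearMap.sum_apply, LinearMap.smul_apply, LinearMap.zero_apply]
    rw [← this]
    refine Finset.sum_congr rfl fun j _ => ?_
    rw [hc_comm _ (b j).2]
  have hre : (fun j => (z j).re) = 0 := by
    apply real_indep_basis T b e he_stab he_sep he_real
    have : ∑ j, ((z j).re : ℂ) • ((b j : T) : Module.End ℂ V)
        = (1 / 2 : ℂ) • (∑ j, z j • ((b j : T) : Module.End ℂ V)
            + ∑ j, conj (z j) • ((b j : T) : Module.End ℂ V)) := by
      rw [← Finset.sum_add_distrib, Finset.smul_sum]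
      refine Finset.sum_congr rfl fun j _ => ?_
      rw [← add_smul, smul_smul, Complex.re_eq_add_conj]
      congr 1
      ring
    rw [this, hz, hconj, add_zero, smul_zero]
  have him : (fun j => (z j).im) = 0 := by
    apply real_indep_basis T b e he_stab he_sep he_real
    have : ∑ j, ((z j).im : ℂ) • ((b j : T) : Module.End ℂ V)
        = (1 / (2 * Complex.I) : ℂ) • (∑ j, z j • ((b j : T) : Module.End ℂ V)
            - ∑ j, conj (z j) • ((b j : T) : Module.End ℂ V)) := by
      rw [← Finset.sum_sub_distrib, Finset.smul_sum]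
      refine Finset.sum_congr rfl fun j _ => ?_
      rw [← sub_smul, smul_smul, Complex.im_eq_sub_conj]
      congr 1
      ring
    rw [this, hz, hconj, sub_zero, smul_zero]
  funext j
  apply Complex.ext
  · exact congrFun hre j
  · exact congrFun him j


/-- Formula: `a₁ (t f)` in terms of the `ℤ`-basis of `T`. -/
theorem apply_eq_sum_repr
    (T : Subalgebra ℤ (Module.End ℂ V))
    {ι : Type*} [Fintype ι] (b : Module.Basis ι ℤ T) (a₁ : Module.Dual ℂ V)
    (t : T) (f : V) :
    a₁ ((t : Module.End ℂ V) f)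
      = ∑ j, (b.repr t j : ℂ) * a₁ (((b j : T) : Module.End ℂ V) f) := by
  have h1 : ((t : T) : Module.End ℂ V)
      = ∑ j, (b.repr t j : ℂ) • ((b j : T) : Module.End ℂ V) := by
    conv_lhs => rw [← b.sum_repr t]
    have := map_sum T.val (fun j => b.repr t j • b j) Finset.univ
    simp only [Subalgebra.coe_val] at this
    rw [this]
    refine Finset.sum_congr rfl fun j _ => ?_
    rw [Int.cast_smul_eq_zsmul]
    rfl
  rw [h1]
  simp only [LinearMap.sum_apply, LinearMap.smul_apply, map_sum, map_smul, smul_eq_mul]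

/-- **Core lattice lemma.**  `T` a commutative `ℤ`-subalgebra of `End_ℂ V`, finite over `ℤ`;
`e` a finite family of functionals whose `ℤ`-span is `T`-stable, which separates points and is
`ℝ`-linearly independent; `c` a conjugate-linear surjection commuting with `T`; `a₁` a functional
with `(∀ t ∈ T, a₁ (t f) = 0) → f = 0`.  Then the vectors `f` with all `a₁ (t f)` integers
span `V` over `ℂ`. -/
theorem span_integral_eq_top [FiniteDimensional ℂ V]
    (T : Subalgebra ℤ (Module.End ℂ V)) [Module.Finite ℤ T]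
    (hT : ∀ s ∈ T, ∀ t ∈ T, s * t = t * s)
    {m : ℕ} (e : Fin m → Module.Dual ℂ V)
    (he_stab : ∀ t ∈ T, ∀ a, ∃ ρ : Fin m → ℤ, (e a) ∘ₗ t = ∑ b, ρ b • e b)
    (he_sep : ∀ f : V, (∀ a, e a f = 0) → f = 0)
    (he_real : ∀ x : Fin m → ℝ, ∑ a, (x a : ℂ) • e a = 0 → x = 0)
    (c : V →ₛₗ[starRingEnd ℂ] V) (hc_surj : Function.Surjective c)
    (hc_comm : ∀ t ∈ T, ∀ f, c (t f) = t (c f))
    (a₁ : Module.Dual ℂ V) (ha : ∀ f : V, (∀ t ∈ T, a₁ (t f) = 0) → f = 0) :
    Submodule.span ℂ {f : V | ∀ t ∈ T, ∃ k : ℤ, a₁ (t f) = k} = ⊤ := by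
  classical
  have : IsAddTorsionFree (Module.End ℂ V) := isAddTorsionFree_of_complex _
  have : IsAddTorsionFree T :=
    Function.Injective.isAddTorsionFree (T.val : T →+ Module.End ℂ V) Subtype.val_injective
  have : Module.Free ℤ T := Module.free_of_finite_type_torsion_free'
  let ι := Module.Free.ChooseBasisIndex ℤ T
  let b : Module.Basis ι ℤ T := Module.Free.chooseBasis ℤ T
  set B : ι → Module.End ℂ V := fun j => ((b j : T) : Module.End ℂ V) with hB
  have hL1 : ∀ z : ι → ℂ, ∑ j, z j • B j = 0 → z = 0 :=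
    complex_indep_basis T b e he_stab he_sep he_real c hc_surj hc_comm
  let Φ : V →ₗ[ℂ] (ι → ℂ) := LinearMap.pi (fun j => a₁ ∘ₗ B j)
  have hΦ : ∀ f j, Φ f j = a₁ (B j f) := fun f j => rfl
  have hF1 : ∀ (t : T) (f : V), a₁ ((t : Module.End ℂ V) f)
      = ∑ j, (b.repr t j : ℂ) * Φ f j := fun t f => apply_eq_sum_repr T b a₁ t f
  -- injectivity
  have hΦ_inj : Function.Injective Φ := by
    rw [injective_iff_map_eq_zero]
    intro f hf
    apply ha
    intro t ht
    have := hF1 ⟨t, ht⟩ f
    simp only at this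
    rw [this, hf]
    simp
  -- surjectivity
  have hΦ_surj : Function.Surjective Φ := by
    rw [← LinearMap.range_eq_top]
    by_contra hne
    obtain ⟨φ, hφ0, hφ⟩ := Submodule.exists_le_ker_of_lt_top _ (lt_top_iff_ne_top.mpr hne)
    apply hφ0
    set z : ι → ℂ := fun j => φ (fun i => if j = i then 1 else 0) with hz
    have hφz : ∀ y : ι → ℂ, φ y = ∑ j, y j * z j := by
      intro y
      rw [LinearMap.pi_apply_eq_sum_univ φ y]
      rfl
    have hs : ∑ j, z j • B j = 0 := by
      apply LinearMap.ext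
      intro f
      apply ha
      intro t ht
      have hcomm : t ((∑ j, z j • B j) f) = (∑ j, z j • B j) (t f) := by
        simp only [LinearMap.sum_apply, LinearMap.smul_apply, map_sum, map_smul]
        refine Finset.sum_congr rfl fun j _ => ?_
        congr 1
        have := hT t ht (B j) (b j).2
        exact LinearMap.congr_fun this f
      rw [hcomm]
      have h2 : φ (Φ (t f)) = 0 := by
        have : Φ (t f) ∈ LinearMap.range Φ := LinearMap.mem_range_self _ _
        exact LinearMap.mem_ker.mp (hφ this)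
      rw [hφz] at h2
      simp only [LinearMap.sum_apply, LinearMap.smul_apply, map_sum, map_smul, smul_eq_mul]
      rw [← h2]
      refine Finset.sum_congr rfl fun j _ => ?_
      rw [hΦ, mul_comm]
    have hz0 := hL1 z hs
    apply LinearMap.ext
    intro y
    rw [hφz, hz0]
    simp
  -- dual family
  choose F hFdef using fun j : ι => hΦ_surj (fun i => if j = i then 1 else 0)
  have hFmem : ∀ j, F j ∈ {f : V | ∀ t ∈ T, ∃ k : ℤ, a₁ (t f) = k} := by
    intro j t ht
    refine ⟨b.repr ⟨t, ht⟩ j, ?_⟩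
    have := hF1 ⟨t, ht⟩ (F j)
    simp only at this
    rw [this, hFdef j]
    simp
  rw [eq_top_iff]
  intro f _
  have hf : f = ∑ j, Φ f j • F j := by
    apply hΦ_inj
    rw [map_sum]
    funext i
    simp only [map_smul, hFdef, Finset.sum_apply, Pi.smul_apply, smul_eq_mul]
    simp
  rw [hf]
  exact Submodule.sum_mem _ fun j _ => Submodule.smul_mem _ _ (Submodule.subset_span (hFmem j))


/-- Data extracted from a finitely generated `T`-stable lattice `Lam` of functionals: a finite
`ℤ`-basis `e` (as a family of functionals) with the stability property, such that every element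
of `Lam` is an integer combination of the `e a`. -/
theorem exists_family_of_lattice
    (T : Subalgebra ℤ (Module.End ℂ V))
    (Lam : Submodule ℤ (Module.Dual ℂ V)) (hfg : Lam.FG)
    (hstab : ∀ t ∈ T, ∀ ξ ∈ Lam, ξ ∘ₗ t ∈ Lam) :
    ∃ (m : ℕ) (eb : Module.Basis (Fin m) ℤ Lam), m = Module.finrank ℤ Lam ∧
      (∀ t ∈ T, ∀ a, ∃ ρ : Fin m → ℤ,
        ((eb a : Lam) : Module.Dual ℂ V) ∘ₗ t = ∑ b, ρ b • ((eb b : Lam) : Module.Dual ℂ V)) ∧
      (∀ ξ ∈ Lam, ∃ ρ : Fin m → ℤ, ξ = ∑ b, ρ b • ((eb b : Lam) : Module.Dual ℂ V)) := by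
  have : Module.Finite ℤ Lam := Module.Finite.iff_fg.mpr hfg
  have : Module.Free ℤ Lam := Module.free_of_finite_type_torsion_free'
  let eb := Module.finBasis ℤ Lam
  have hrepr : ∀ ξ ∈ Lam, ∃ ρ : Fin (Module.finrank ℤ Lam) → ℤ,
      ξ = ∑ b, ρ b • ((eb b : Lam) : Module.Dual ℂ V) := by
    intro ξ hξ
    refine ⟨fun b => eb.repr ⟨ξ, hξ⟩ b, ?_⟩
    have h := congrArg (Lam.subtype) (eb.sum_repr ⟨ξ, hξ⟩)
    rw [map_sum] at h
    simp only [map_smul, Submodule.subtype_apply] at h
    exact h.symm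
  exact ⟨_, eb, rfl, fun t ht a => hrepr _ (hstab t ht _ (eb a).2), hrepr⟩

/-- **Lattice lemma, "dual representation" form.**  `Lam` a finitely generated `T`-stable
separating lattice of functionals such that every additive functional `ψ : Lam → ℂ` is of the form
`ξ ↦ ξ u - conj (ξ v)` (the shape delivered by Eichler–Shimura). -/
theorem span_integral_eq_top_of_lattice [FiniteDimensional ℂ V]
    (T : Subalgebra ℤ (Module.End ℂ V)) [Module.Finite ℤ T]
    (hT : ∀ s ∈ T, ∀ t ∈ T, s * t = t * s)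
    (Lam : Submodule ℤ (Module.Dual ℂ V)) (hfg : Lam.FG)
    (hstab : ∀ t ∈ T, ∀ ξ ∈ Lam, ξ ∘ₗ t ∈ Lam)
    (hsep : ∀ f : V, (∀ ξ ∈ Lam, ξ f = 0) → f = 0)
    (hdual : ∀ ψ : Lam →ₗ[ℤ] ℂ, ∃ u v : V, ∀ ξ : Lam,
      ψ ξ = (ξ : Module.Dual ℂ V) u - conj ((ξ : Module.Dual ℂ V) v))
    (c : V →ₛₗ[starRingEnd ℂ] V) (hc_surj : Function.Surjective c)
    (hc_comm : ∀ t ∈ T, ∀ f, c (t f) = t (c f))
    (a₁ : Module.Dual ℂ V) (ha : ∀ f : V, (∀ t ∈ T, a₁ (t f) = 0) → f = 0) :
    Submodule.span ℂ {f : V | ∀ t ∈ T, ∃ k : ℤ, a₁ (t f) = k} = ⊤ := by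
  classical
  obtain ⟨m, eb, -, he_stab, hrepr⟩ := exists_family_of_lattice T Lam hfg hstab
  refine span_integral_eq_top T hT (fun a => ((eb a : Lam) : Module.Dual ℂ V)) he_stab ?_ ?_
    c hc_surj hc_comm a₁ ha
  · intro f hf
    apply hsep
    intro ξ hξ
    obtain ⟨ρ, rfl⟩ := hrepr ξ hξ
    simp [LinearMap.sum_apply, hf]
  · intro x hx
    funext a0
    let ψ : Lam →ₗ[ℤ] ℂ := (Algebra.linearMap ℤ ℂ) ∘ₗ (eb.coord a0)
    obtain ⟨u, v, huv⟩ := hdual ψ
    have hψ : ∀ a, ψ (eb a) = if a = a0 then 1 else 0 := by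
      intro a
      simp only [ψ, LinearMap.comp_apply, Module.Basis.coord_apply, Module.Basis.repr_self,
        Algebra.linearMap_apply]
      rw [Finsupp.single_apply]
      split_ifs <;> simp
    have h1 : ∑ a, (x a : ℂ) * ψ (eb a) = (x a0 : ℂ) := by
      simp [hψ]
    have h2 : ∑ a, (x a : ℂ) * ψ (eb a) = 0 := by
      have hu := LinearMap.congr_fun hx u
      have hv := LinearMap.congr_fun hx v
      simp only [LinearMap.sum_apply, LinearMap.smul_apply, smul_eq_mul,
        LinearMap.zero_apply] at hu hv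
      have hv' := congrArg conj hv
      simp only [map_sum, map_mul, Complex.conj_ofReal, map_zero] at hv'
      simp only [huv, mul_sub, Finset.sum_sub_distrib, hu, hv', sub_zero]
    rw [h1] at h2
    simpa using h2


/-- **Lattice lemma, "rank" form.**  `Lam` a finitely generated `T`-stable lattice of functionals
which is *real*-separating (`(∀ ξ ∈ Lam, (ξ f).re = 0) → f = 0`) and of `ℤ`-rank at most
`2 * dim_ℂ V`. -/
theorem span_integral_eq_top_of_lattice_rank [FiniteDimensional ℂ V]
    (T : Subalgebra ℤ (Module.End ℂ V)) [Module.Finite ℤ T]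
    (hT : ∀ s ∈ T, ∀ t ∈ T, s * t = t * s)
    (Lam : Submodule ℤ (Module.Dual ℂ V)) (hfg : Lam.FG)
    (hstab : ∀ t ∈ T, ∀ ξ ∈ Lam, ξ ∘ₗ t ∈ Lam)
    (hsepR : ∀ f : V, (∀ ξ ∈ Lam, (ξ f).re = 0) → f = 0)
    (hrank : Module.finrank ℤ Lam ≤ 2 * Module.finrank ℂ V)
    (c : V →ₛₗ[starRingEnd ℂ] V) (hc_surj : Function.Surjective c)
    (hc_comm : ∀ t ∈ T, ∀ f, c (t f) = t (c f))
    (a₁ : Module.Dual ℂ V) (ha : ∀ f : V, (∀ t ∈ T, a₁ (t f) = 0) → f = 0) :
    Submodule.span ℂ {f : V | ∀ t ∈ T, ∃ k : ℤ, a₁ (t f) = k} = ⊤ := by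
  classical
  obtain ⟨m, eb, hm, he_stab, hrepr⟩ := exists_family_of_lattice T Lam hfg hstab
  set e : Fin m → Module.Dual ℂ V := fun a => ((eb a : Lam) : Module.Dual ℂ V) with he
  have hsep' : ∀ f : V, (∀ a, (e a f).re = 0) → f = 0 := by
    intro f hf
    apply hsepR
    intro ξ hξ
    obtain ⟨ρ, rfl⟩ := hrepr ξ hξ
    simp only [LinearMap.sum_apply, LinearMap.smul_apply, Complex.re_sum]
    refine Finset.sum_eq_zero fun a _ => ?_
    have h := hf a
    simp only [he] at h
    rw [zsmul_eq_mul, ← Complex.ofReal_intCast, Complex.re_ofReal_mul, h, mul_zero]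
  refine span_integral_eq_top T hT e he_stab ?_ ?_ c hc_surj hc_comm a₁ ha
  · intro f hf
    apply hsep'
    intro a
    rw [hf a, Complex.zero_re]
  · -- the real-part map `V → ℝ^m` is bijective
    let E : V →ₗ[ℝ] (Fin m → ℝ) :=
      LinearMap.pi (fun a => Complex.reLm ∘ₗ (e a).restrictScalars ℝ)
    have hE : ∀ f a, E f a = (e a f).re := fun f a => rfl
    have hE_inj : Function.Injective E := by
      rw [injective_iff_map_eq_zero]
      intro f hf
      apply hsep'
      intro a
      rw [← hE, hf]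
      rfl
    have hdim : Module.finrank ℝ V = Module.finrank ℝ (Fin m → ℝ) := by
      apply le_antisymm
      · exact LinearMap.finrank_le_finrank_of_injective hE_inj
      · rw [Module.finrank_fin_fun, finrank_real_of_complex, hm]
        exact hrank
    have hE_surj : Function.Surjective E :=
      (LinearMap.injective_iff_surjective_of_finrank_eq_finrank hdim).mp hE_inj
    intro x hx
    obtain ⟨f, hf⟩ := hE_surj x
    have h1 := congrArg Complex.re (LinearMap.congr_fun hx f)
    simp only [LinearMap.sum_apply, LinearMap.smul_apply, smul_eq_mul, Complex.re_sum,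
      Complex.re_ofReal_mul, LinearMap.zero_apply, Complex.zero_re] at h1
    have h2 : ∑ a, x a * x a = 0 := by
      rw [← h1]
      refine Finset.sum_congr rfl fun a _ => ?_
      rw [← hE, hf]
    funext a
    have h3 := (Finset.sum_eq_zero_iff_of_nonneg (fun a _ => mul_self_nonneg (x a))).mp h2 a
      (Finset.mem_univ a)
    exact mul_self_eq_zero.mp h3

end Core

end Fermat.Agent.S23.LatticeAlg
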