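import Fermat.Agent.S22.HeckeRel
import Fermat.Agent.S22.Inject
import Fermat.Agent.S22.Gamma0FG
import Fermat.Agent.S22.Lattice
import Fermat.Agent.S21.PeriodPrim
import Fermat.Agent.S21.Parabolic

/-! S23, package R3: the period lattice of weight two cusp forms on `Γ₀(N)`. -/

set_option autoImplicit false

namespace Fermat.Agent.S23

open UpperHalfPlane CongruenceSubgroup Matrix.SpecialLinearGroup Polynomial
open ModularCurve ModularCurve.Period Fermat.Agent.S22 Fermat.Agent.S21
open scoped MatrixGroups ModularForm Manifold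

noncomputable section

variable (N : ℕ) [NeZero N]

/-- The period functional `f ↦ P(f)(γ)`. -/
def perFun (γ : Gamma0 N) : Module.Dual ℂ (CuspForm (Gamma0 N) 2) where
  toFun f := periodMap N f (Additive.ofMul γ)
  map_add' f g := by rw [periodMap_add, AddMonoidHom.add_apply]
  map_smul' c f := by rw [periodMap_smul, AddMonoidHom.smul_apply]; rfl

@[simp] theorem perFun_apply (γ : Gamma0 N) (f : CuspForm (Gamma0 N) 2) :
    perFun N γ f = periodMap N f (Additive.ofMul γ) := rfl

theorem perFun_mul (γ δ : Gamma0 N) : perFun N (γ * δ) = perFun N γ + perFun N δ := by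
  ext f
  rw [LinearMap.add_apply, perFun_apply, perFun_apply, perFun_apply, ofMul_mul, map_add]

/-- The period functionals as a homomorphism. -/
def perHom : Additive (Gamma0 N) →+ Module.Dual ℂ (CuspForm (Gamma0 N) 2) where
  toFun γ := perFun N (Additive.toMul γ)
  map_zero' := by
    ext f
    simp
  map_add' γ δ := by
    rw [toMul_add, perFun_mul]

/-- The period lattice. -/
def perLattice : Submodule ℤ (Module.Dual ℂ (CuspForm (Gamma0 N) 2)) :=
  Submodule.span ℤ (Set.range (perFun N))

theorem perFun_mem (γ : Gamma0 N) : perFun N γ ∈ perLattice N :=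
  Submodule.subset_span ⟨γ, rfl⟩

theorem perLattice_eq_range :
    perLattice N = AddSubgroup.toIntSubmodule (perHom N).range := by
  apply le_antisymm
  · refine Submodule.span_le.mpr ?_
    rintro _ ⟨γ, rfl⟩
    exact ⟨Additive.ofMul γ, rfl⟩
  · rintro _ ⟨γ, rfl⟩
    exact perFun_mem N _

theorem perLattice_fg : (perLattice N).FG := by
  rw [perLattice_eq_range, Submodule.fg_iff_addSubgroup_fg]
  have : Group.FG (Gamma0 N) := (Group.fg_iff_subgroup_fg _).mpr (gamma0_fg N)
  have : AddGroup.FG (Additive (Gamma0 N)) := inferInstance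
  show (perHom N).range.FG
  rw [← AddGroup.fg_iff_addSubgroup_fg]
  exact AddGroup.fg_range (perHom N)

theorem eichlerPoly_zero (f : ℍ → ℂ) (τ : ℍ) : eichlerPoly 0 f τ = C (dprim f τ) := by
  simp [eichlerPoly]

theorem polyAct_zero_C (g : GL (Fin 2) ℝ) (a : ℂ) : polyAct 0 g (C a) = C a := by
  simp [polyAct, Polynomial.smul_eq_C_mul]

theorem periodPoly_zero (f : ℍ → ℂ) (g : GL (Fin 2) ℝ) :
    periodPoly 0 f g = C (dprim f (g • I) - dprim f I) := by
  rw [periodPoly, eichlerPoly_zero, eichlerPoly_zero, polyAct_zero_C, C_sub]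


theorem periodPoly_zero_cusp (f : CuspForm (Gamma0 N) 2) (γ : Gamma0 N) :
    periodPoly 0 ⇑f (mapGL ℝ (γ : SL(2, ℤ))) = C (periodMap N f (Additive.ofMul γ)) := by
  rw [periodPoly_zero, periodMap_apply N f γ I]
  rfl

theorem perFun_comp_generator (t : Module.End ℂ (CuspForm (Gamma0 N) 2))
    (ht : t ∈ CuspForm.heckeGenerators N 2 ∅) (γ : Gamma0 N) :
    (perFun N γ).comp t ∈ perLattice N := by
  obtain ⟨ι, _, γ', B, hγ', hB, hrel⟩ :=
    periodPoly_hecke 0 (N := N) ∅ t ht (γ : SL(2, ℤ)) γ.2
  have key : (perFun N γ).comp t = ∑ i : ι, perFun N ⟨γ' i, hγ' i⟩ := by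
    ext f
    rw [LinearMap.comp_apply, LinearMap.sum_apply, perFun_apply]
    have h1 := hrel f
    have h2 := periodPoly_zero_cusp N (t f) γ
    have h3 : ∀ i, periodPoly 0 ⇑f (mapGL ℝ (γ' i)) =
        C (periodMap N f (Additive.ofMul (⟨γ' i, hγ' i⟩ : Gamma0 N))) :=
      fun i => periodPoly_zero_cusp N f ⟨γ' i, hγ' i⟩
    rw [h2] at h1
    simp only [h3, polyAct_zero_C] at h1
    rw [← map_sum] at h1
    simpa using C_injective h1
  rw [key]
  exact (perLattice N).sum_mem fun i _ => perFun_mem N _

theorem perLattice_comp_mem {t : Module.End ℂ (CuspForm (Gamma0 N) 2)}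
    (ht : t ∈ CuspForm.heckeAlgebra N 2 ∅) {ξ : Module.Dual ℂ (CuspForm (Gamma0 N) 2)}
    (hξ : ξ ∈ perLattice N) : ξ.comp t ∈ perLattice N := by
  refine comp_mem_of_mem_adjoin (CuspForm.heckeGenerators N 2 ∅) (perLattice N) ?_ ht ξ hξ
  intro t ht ξ hξ
  induction hξ using Submodule.span_induction with
  | mem ξ hξ =>
    obtain ⟨γ, rfl⟩ := hξ
    exact perFun_comp_generator N t ht γ
  | zero => simp
  | add x y _ _ hx hy =>
    have : (x + y).comp t = x.comp t + y.comp t := by ext v; simp
    rw [this]; exact (perLattice N).add_mem hx hy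
  | smul a x _ hx =>
    have : (a • x).comp t = a • x.comp t := by ext v; simp
    rw [this]; exact (perLattice N).smul_mem a hx


theorem periodHomPair_sub_add (f f' : CuspForm (Gamma0 N) 2) (γ : Gamma0 N) :
    periodHomPair N (f - f', f + f') (Additive.ofMul γ) =
      2 * periodMap N f (Additive.ofMul γ) -
        2 * periodMap N f' (Additive.ofMul (jConjGamma0 N γ)) := by
  rw [periodHomPair_apply]
  have h1 : periodMap N (f - f') = periodMap N f - periodMap N f' :=
    map_sub (periodMapLinear N) f f'
  have h2 : periodMap N (f + f') = periodMap N f + periodMap N f' :=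
    map_add (periodMapLinear N) f f'
  rw [h1, h2]
  simp only [map_sub, map_add, AddMonoidHom.add_apply, AddMonoidHom.sub_apply,
    charInvolution_apply, toMul_ofMul]
  ring

theorem perLattice_re_separating (hinj : Function.Injective (periodHomPair N))
    (hconj : ∀ f : CuspForm (Gamma0 N) 2, ∃ f' : CuspForm (Gamma0 N) 2, ∀ γ : Gamma0 N,
      periodMap N f (Additive.ofMul (jConjGamma0 N γ)) =
        - (starRingEnd ℂ) (periodMap N f' (Additive.ofMul γ)))
    (f : CuspForm (Gamma0 N) 2) (h : ∀ ξ ∈ perLattice N, (ξ f).re = 0) : f = 0 := by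
  obtain ⟨f', hf'⟩ := hconj f
  have hre : ∀ γ : Gamma0 N, (periodMap N f (Additive.ofMul γ)).re = 0 := fun γ =>
    h _ (perFun_mem N γ)
  have h1 : ∀ γ : Gamma0 N, periodMap N f' (Additive.ofMul (jConjGamma0 N γ)) =
      periodMap N f (Additive.ofMul γ) := by
    intro γ
    have h2 := hf' (jConjGamma0 N γ)
    rw [jConjGamma0_jConjGamma0] at h2
    have h3 : (starRingEnd ℂ) (periodMap N f (Additive.ofMul γ)) =
        - periodMap N f (Additive.ofMul γ) := by
      apply Complex.ext
      · simp [hre γ]
      · simp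
    have h4 := congrArg (starRingEnd ℂ) h2
    rw [map_neg, Complex.conj_conj, h3] at h4
    rw [eq_comm, ← neg_inj]
    exact h4
  have h0 : periodHomPair N (f - f', f + f') = 0 := by
    refine AddMonoidHom.ext fun γ => ?_
    have := periodHomPair_sub_add N f f' (Additive.toMul γ)
    rw [h1] at this
    simpa using this
  have h5 : (f - f', f + f') = 0 := hinj (by rw [h0, map_zero])
  have h6 : f - f' = 0 := congrArg Prod.fst h5
  have h7 : f + f' = 0 := congrArg Prod.snd h5
  have h8 : (2 : ℂ) • f = 0 := by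
    rw [two_smul]
    calc f + f = (f - f') + (f + f') := by abel
    _ = 0 := by rw [h6, h7, add_zero]
  exact (smul_eq_zero.mp h8).resolve_left two_ne_zero


/-- The period functional along a parabolic element vanishes. -/
theorem perFun_eq_zero_of_trace (γ : Gamma0 N)
    (hγ : ((γ : SL(2, ℤ)) : Matrix (Fin 2) (Fin 2) ℤ).trace ^ 2 = 4) : perFun N γ = 0 := by
  ext f
  rw [perFun_apply, LinearMap.zero_apply]
  have := periodMap_mem_parabolicHoms N f
  rw [mem_parabolicHoms_iff] at this
  exact this γ hγ

/-- The period functionals as a homomorphism into the lattice. -/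
def perHomL : Additive (Gamma0 N) →+ perLattice N where
  toFun γ := ⟨perFun N (Additive.toMul γ), perFun_mem N _⟩
  map_zero' := by
    apply Subtype.ext
    exact (perHom N).map_zero
  map_add' γ δ := by
    apply Subtype.ext
    exact (perHom N).map_add γ δ

theorem perHomL_coe (γ : Additive (Gamma0 N)) :
    ((perHomL N γ : perLattice N) : Module.Dual ℂ (CuspForm (Gamma0 N) 2)) =
      perFun N (Additive.toMul γ) := rfl

theorem span_range_perHomL :
    Submodule.span ℤ (Set.range (perHomL N)) = ⊤ := by
  rw [eq_top_iff]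
  rintro ⟨ξ, hξ⟩ -
  have : ∀ ξ (hξ : ξ ∈ perLattice N),
      (⟨ξ, hξ⟩ : perLattice N) ∈ Submodule.span ℤ (Set.range (perHomL N)) := by
    intro ξ hξ
    induction hξ using Submodule.span_induction with
    | mem ξ h =>
      obtain ⟨γ, rfl⟩ := h
      exact Submodule.subset_span ⟨Additive.ofMul γ, rfl⟩
    | zero => exact Submodule.zero_mem _
    | add x y hx hy ihx ihy =>
      have : (⟨x + y, (perLattice N).add_mem hx hy⟩ : perLattice N) = ⟨x, hx⟩ + ⟨y, hy⟩ := rfl
      rw [this]
      exact Submodule.add_mem _ ihx ihy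
    | smul a x hx ihx =>
      have : (⟨a • x, (perLattice N).smul_mem a hx⟩ : perLattice N) = a • ⟨x, hx⟩ := rfl
      rw [this]
      exact Submodule.smul_mem _ a ihx
  exact this ξ hξ

theorem finrank_perLattice_le [FiniteDimensional ℂ (CuspForm (Gamma0 N) 2)]
    (hinj : Function.Injective (periodHomPair N))
    (hrange : LinearMap.range (periodHomPair N) = parabolicHoms ℂ (Gamma0 N) ℂ) :
    Module.finrank ℤ (perLattice N) ≤ 2 * Module.finrank ℂ (CuspForm (Gamma0 N) 2) := by
  classical
  have hfin : Module.Finite ℤ (perLattice N) := Module.Finite.iff_fg.mpr (perLattice_fg N)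
  have hfree : Module.Free ℤ (perLattice N) := inferInstance
  let b := Module.finBasis ℤ (perLattice N)
  set r := Module.finrank ℤ (perLattice N) with hr
  -- coordinate homomorphisms
  let ψ : Fin r → (Additive (Gamma0 N) →+ ℂ) := fun i =>
    ((Int.castAddHom ℂ).comp
      ((LinearMap.proj i : (Fin r → ℤ) →ₗ[ℤ] ℤ).toAddMonoidHom.comp
        ((b.equivFun : perLattice N →ₗ[ℤ] (Fin r → ℤ)).toAddMonoidHom))).comp (perHomL N)
  have hψ_apply : ∀ i γ, ψ i γ = ((b.repr (perHomL N γ) i : ℤ) : ℂ) := fun i γ => rfl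
  have hψ_par : ∀ i, ψ i ∈ parabolicHoms ℂ (Gamma0 N) ℂ := by
    intro i
    rw [mem_parabolicHoms_iff]
    intro γ hγ
    rw [hψ_apply]
    have : perHomL N (Additive.ofMul γ) = 0 := by
      apply Subtype.ext
      rw [perHomL_coe]
      exact perFun_eq_zero_of_trace N γ hγ
    rw [this]
    simp
  have hli : LinearIndependent ℂ ψ := by
    rw [Fintype.linearIndependent_iff]
    intro c hc j
    -- the ℤ-linear functional `ξ ↦ ∑ c i * (repr ξ i)`
    let Λ : perLattice N →ₗ[ℤ] ℂ :=
      { toFun := fun ξ => ∑ i, c i * ((b.repr ξ i : ℤ) : ℂ)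
        map_add' := by
          intro x y
          simp only [map_add, Finsupp.coe_add, Pi.add_apply, Int.cast_add, mul_add,
            Finset.sum_add_distrib]
        map_smul' := by
          intro a x
          simp only [map_smul, Finsupp.coe_smul, Pi.smul_apply, smul_eq_mul, Int.cast_mul,
            eq_intCast, Int.cast_eq, zsmul_eq_mul, Finset.mul_sum]
          refine Finset.sum_congr rfl fun i _ => ?_
          ring }
    have hΛ0 : ∀ γ, Λ (perHomL N γ) = 0 := by
      intro γ
      have := congrArg (fun φ : Additive (Gamma0 N) →+ ℂ => φ γ) hc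
      simp only [AddMonoidHom.finsetSum_apply, AddMonoidHom.smul_apply, smul_eq_mul,
        AddMonoidHom.zero_apply, hψ_apply] at this
      exact this
    have hΛ : Λ = 0 := by
      apply LinearMap.ext_on (span_range_perHomL N)
      rintro _ ⟨γ, rfl⟩
      rw [hΛ0, LinearMap.zero_apply]
    have := congrArg (fun φ : perLattice N →ₗ[ℤ] ℂ => φ (b j)) hΛ
    simp only [LinearMap.zero_apply] at this
    have h2 : Λ (b j) = c j := by
      show ∑ i, c i * ((b.repr (b j) i : ℤ) : ℂ) = c j
      rw [b.repr_self]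
      simp [Finsupp.single_apply]
    rw [h2] at this
    exact this
  have hfd : FiniteDimensional ℂ (LinearMap.range (periodHomPair N)) := inferInstance
  have hle : Submodule.span ℂ (Set.range ψ) ≤ LinearMap.range (periodHomPair N) := by
    rw [hrange]
    exact Submodule.span_le.mpr (by rintro _ ⟨i, rfl⟩; exact hψ_par i)
  calc r = Fintype.card (Fin r) := (Fintype.card_fin r).symm
    _ = Module.finrank ℂ (Submodule.span ℂ (Set.range ψ)) := (finrank_span_eq_card hli).symm
    _ ≤ Module.finrank ℂ (LinearMap.range (periodHomPair N)) := Submodule.finrank_mono hle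
    _ = Module.finrank ℂ (CuspForm (Gamma0 N) 2 × CuspForm (Gamma0 N) 2) :=
        LinearMap.finrank_range_of_inj hinj
    _ = 2 * Module.finrank ℂ (CuspForm (Gamma0 N) 2) := by
        rw [Module.finrank_prod, two_mul]

end

end Fermat.Agent.S23
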