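import Mathlib

set_option autoImplicit false

/-!
# S23: `ℤ`-independent operators preserving a real lattice of functionals and commuting with a
conjugate-linear involution are `ℂ`-independent
-/

namespace Fermat.Agent.S23

open Module

section

variable {V : Type*} [AddCommGroup V] [Module ℂ V]

/-- Real coefficients: if `∑ x_k b_k = 0` with real `x_k`, where the `b_k` are `ℤ`-independent and
act integrally on an `ℝ`-independent separating family of functionals, then `x = 0`. -/
theorem eq_zero_of_real_relation {n : ℕ} (lam : Fin n → Module.Dual ℂ V)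
    (hlam : LinearIndependent ℝ lam) (hsep : ∀ f : V, (∀ i, lam i f = 0) → f = 0)
    {r : ℕ} (b : Fin r → Module.End ℂ V)
    (hstab : ∀ k i, ∃ m : Fin n → ℤ, ∀ f, lam i (b k f) = ∑ j, (m j : ℂ) * lam j f)
    (hb : LinearIndependent ℤ b) (x : Fin r → ℝ)
    (hx : ∀ f : V, ∑ k, (x k : ℂ) • b k f = 0) : ∀ k, x k = 0 := by
  classical
  choose m hm using hstab
  -- step 1: the real relations among the integer matrices
  have h1 : ∀ i j, ∑ k, x k * (m k i j : ℝ) = 0 := by
    intro i
    have hrel : ∑ j, (∑ k, x k * (m k i j : ℝ)) • lam j = 0 := by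
      ext f
      have h := congrArg (lam i) (hx f)
      simp only [map_sum, map_smul, smul_eq_mul, map_zero] at h
      simp only [LinearMap.sum_apply, LinearMap.zero_apply]
      rw [← h]
      have : ∀ j, ((∑ k, x k * (m k i j : ℝ)) • lam j) f
          = ∑ k, (x k : ℂ) * ((m k i j : ℂ) * lam j f) := by
        intro j
        rw [← Complex.coe_smul, LinearMap.smul_apply, smul_eq_mul]
        push_cast
        rw [Finset.sum_mul]
        refine Finset.sum_congr rfl fun k _ => ?_
        ring
      simp only [this]
      rw [Finset.sum_comm]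
      refine Finset.sum_congr rfl fun k _ => ?_
      rw [hm k i f, Finset.mul_sum]
    exact fun j => Fintype.linearIndependent_iff.mp hlam _ hrel j
  -- step 2: rational relations via a `ℚ`-linear functional on `ℝ`
  by_contra hne
  rw [not_forall] at hne
  obtain ⟨k0, hk0⟩ := hne
  obtain ⟨φ, hφ⟩ := Module.Projective.exists_dual_ne_zero ℚ hk0
  have h2 : ∀ i j, ∑ k, φ (x k) * (m k i j : ℚ) = 0 := by
    intro i j
    have h := congrArg φ (h1 i j)
    rw [map_sum, map_zero] at h
    rw [← h]
    refine Finset.sum_congr rfl fun k _ => ?_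
    have : x k * (m k i j : ℝ) = (m k i j : ℚ) • x k := by
      rw [Rat.smul_def]
      push_cast
      ring
    rw [this, map_smul, smul_eq_mul, mul_comm]
  -- step 3: clear denominators
  obtain ⟨D, hD⟩ := IsLocalization.exist_integer_multiples (nonZeroDivisors ℤ)
    (Finset.univ : Finset (Fin r)) (fun k => φ (x k))
  have hD0 : (D : ℤ) ≠ 0 := nonZeroDivisors.coe_ne_zero D
  choose nn hnn using fun k => hD k (Finset.mem_univ k)
  have hnn' : ∀ k, (nn k : ℚ) = (D : ℤ) * φ (x k) := by
    intro k
    have := hnn k
    simp only [eq_intCast, zsmul_eq_mul] at this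
    exact this
  have h3 : ∑ k, nn k • b k = 0 := by
    ext f
    apply hsep
    intro i
    simp only [LinearMap.sum_apply, LinearMap.smul_apply, map_sum]
    have : ∀ k, lam i (nn k • b k f) = ∑ j, ((nn k * (m k i j : ℤ) : ℤ) : ℂ) * lam j f := by
      intro k
      rw [← Int.cast_smul_eq_zsmul ℂ, map_smul, smul_eq_mul, hm k i f, Finset.mul_sum]
      refine Finset.sum_congr rfl fun j _ => ?_
      push_cast
      ring
    simp only [this]
    rw [Finset.sum_comm]
    refine Finset.sum_eq_zero fun j _ => ?_
    rw [← Finset.sum_mul, ← Int.cast_sum]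
    have hz : ∑ k, nn k * m k i j = 0 := by
      have : ((∑ k, nn k * m k i j : ℤ) : ℚ) = 0 := by
        push_cast
        simp only [hnn', mul_assoc]
        rw [← Finset.mul_sum, h2 i j, mul_zero]
      exact_mod_cast this
    rw [hz]
    simp
  have h4 : nn k0 = 0 := Fintype.linearIndependent_iff.mp hb _ h3 k0
  have h5 := hnn' k0
  rw [h4] at h5
  simp only [Int.cast_zero] at h5
  rcases mul_eq_zero.mp h5.symm with h | h
  · exact hD0 (by exact_mod_cast h)
  · exact hφ h

/-- `ℤ`-independent operators that act integrally on an `ℝ`-independent separating family of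
functionals and commute with a conjugate-linear involution are `ℂ`-independent. -/
theorem linearIndependent_complex_of_lattice {n : ℕ} (lam : Fin n → Module.Dual ℂ V)
    (hlam : LinearIndependent ℝ lam) (hsep : ∀ f : V, (∀ i, lam i f = 0) → f = 0)
    (c : V → V) (hc_add : ∀ f g, c (f + g) = c f + c g)
    (hc_smul : ∀ (z : ℂ) (f : V), c (z • f) = (starRingEnd ℂ z) • c f)
    (hc_inv : ∀ f, c (c f) = f)
    {r : ℕ} (b : Fin r → Module.End ℂ V)
    (hstab : ∀ k i, ∃ m : Fin n → ℤ, ∀ f, lam i (b k f) = ∑ j, (m j : ℂ) * lam j f)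
    (hc_comm : ∀ k f, c (b k f) = b k (c f))
    (hb : LinearIndependent ℤ b) : LinearIndependent ℂ b := by
  classical
  rw [Fintype.linearIndependent_iff]
  intro z hz
  have hc0 : c 0 = 0 := by
    have := hc_smul 0 0
    simpa using this
  let cA : V →+ V := { toFun := c, map_zero' := hc0, map_add' := hc_add }
  have hz1 : ∀ f : V, ∑ k, z k • b k f = 0 := by
    intro f
    have := congrArg (fun t : Module.End ℂ V => t f) hz
    simpa using this
  have hz2 : ∀ f : V, ∑ k, (starRingEnd ℂ (z k)) • b k f = 0 := by
    intro f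
    have h := congrArg cA (hz1 (c f))
    rw [map_sum, map_zero] at h
    rw [← h]
    refine Finset.sum_congr rfl fun k _ => ?_
    show _ = c (z k • b k (c f))
    rw [hc_smul, hc_comm, hc_inv]
  have hre : ∀ f : V, ∑ k, (((z k).re : ℝ) : ℂ) • b k f = 0 := by
    intro f
    have h : (2 : ℂ) • ∑ k, (((z k).re : ℝ) : ℂ) • b k f = 0 := by
      rw [Finset.smul_sum]
      have : ∀ k, (2 : ℂ) • (((z k).re : ℝ) : ℂ) • b k f
          = z k • b k f + (starRingEnd ℂ (z k)) • b k f := by
        intro k
        rw [smul_smul, ← add_smul]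
        congr 1
        rw [Complex.add_conj]
        push_cast
        ring
      simp only [this, Finset.sum_add_distrib, hz1 f, hz2 f, add_zero]
    exact (smul_eq_zero.mp h).resolve_left two_ne_zero
  have him : ∀ f : V, ∑ k, (((z k).im : ℝ) : ℂ) • b k f = 0 := by
    intro f
    have h : (2 * Complex.I : ℂ) • ∑ k, (((z k).im : ℝ) : ℂ) • b k f = 0 := by
      rw [Finset.smul_sum]
      have : ∀ k, (2 * Complex.I : ℂ) • (((z k).im : ℝ) : ℂ) • b k f
          = z k • b k f - (starRingEnd ℂ (z k)) • b k f := by
        intro k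
        rw [smul_smul, ← sub_smul]
        congr 1
        rw [Complex.sub_conj]
        push_cast
        ring
      simp only [this, Finset.sum_sub_distrib, hz1 f, hz2 f, sub_zero]
    exact (smul_eq_zero.mp h).resolve_left (by simp)
  have h1 := eq_zero_of_real_relation lam hlam hsep b hstab hb (fun k => (z k).re) hre
  have h2 := eq_zero_of_real_relation lam hlam hsep b hstab hb (fun k => (z k).im) him
  intro k
  exact Complex.ext (h1 k) (h2 k)

end

end Fermat.Agent.S23
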