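import Mathlib

set_option autoImplicit false

/-!
# S23: a finitely generated, real-separating subgroup of small rank in the dual is a real lattice
-/

namespace Fermat.Agent.S23

open Module

section

variable {V : Type*} [AddCommGroup V] [Module ℂ V] [FiniteDimensional ℂ V]

/-- If `Lam ⊆ V*` is finitely generated, real-separating and of `ℤ`-rank at most `2 dim_ℂ V`, then
`Lam` has a `ℤ`-basis which is `ℝ`-linearly independent in `V*`. -/
theorem exists_real_indep_basis (Lam : Submodule ℤ (Module.Dual ℂ V)) (hfg : Lam.FG)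
    (hre : ∀ f : V, (∀ ξ ∈ Lam, (ξ f).re = 0) → f = 0)
    (hrank : Module.finrank ℤ Lam ≤ 2 * Module.finrank ℂ V) :
    ∃ (n : ℕ) (lam : Fin n → Module.Dual ℂ V), (∀ i, lam i ∈ Lam) ∧
      (∀ ξ ∈ Lam, ∃ m : Fin n → ℤ, ξ = ∑ i, m i • lam i) ∧ LinearIndependent ℝ lam := by
  classical
  have : Module.Finite ℤ Lam := Module.Finite.iff_fg.mpr hfg
  have : Module.Free ℤ Lam := inferInstance
  set n := Module.finrank ℤ Lam with hn
  let b : Basis (Fin n) ℤ Lam := Module.finBasis ℤ Lam
  let lam : Fin n → Module.Dual ℂ V := fun i => (b i : Module.Dual ℂ V)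
  have hgen : ∀ ξ ∈ Lam, ∃ m : Fin n → ℤ, ξ = ∑ i, m i • lam i := by
    intro ξ hξ
    refine ⟨fun i => b.repr ⟨ξ, hξ⟩ i, ?_⟩
    have h := b.sum_repr ⟨ξ, hξ⟩
    have h2 := congrArg (fun x : Lam => (x : Module.Dual ℂ V)) h
    simp only [Submodule.coe_sum, Submodule.coe_smul] at h2
    exact h2.symm
  refine ⟨n, lam, fun i => (b i).2, hgen, ?_⟩
  -- the real evaluation map
  have hsm : ∀ (r : ℝ) (ξ : Module.Dual ℂ V) (f : V), (r • ξ) f = (r : ℂ) * ξ f := by
    intro r ξ f
    rw [← Complex.coe_smul r ξ, LinearMap.smul_apply, smul_eq_mul]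
  let Ev : V →ₗ[ℝ] (Fin n → ℝ) :=
    { toFun := fun f i => (lam i f).re
      map_add' := by
        intro f g
        funext i
        simp
      map_smul' := by
        intro r f
        funext i
        rw [← Complex.coe_smul r f]
        simp }
  have hEv_inj : Function.Injective Ev := by
    rw [← LinearMap.ker_eq_bot, LinearMap.ker_eq_bot']
    intro f hf
    apply hre
    intro ξ hξ
    obtain ⟨m, rfl⟩ := hgen ξ hξ
    have h0 : ∀ i, (lam i f).re = 0 := fun i => congrFun hf i
    simp only [LinearMap.sum_apply, LinearMap.smul_apply, Complex.re_sum, zsmul_eq_mul]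
    refine Finset.sum_eq_zero fun i _ => ?_
    have : ((m i : ℂ) * lam i f).re = (m i : ℝ) * (lam i f).re := by
      simp
    rw [this, h0 i, mul_zero]
  have hfr : Module.finrank ℝ V = 2 * Module.finrank ℂ V := finrank_real_of_complex V
  have hle : Module.finrank ℝ V ≤ n := by
    have := LinearMap.finrank_le_finrank_of_injective hEv_inj
    simpa using this
  have hn2 : Module.finrank ℝ V = Module.finrank ℝ (Fin n → ℝ) := by
    simp only [Module.finrank_fin_fun]
    omega
  have hEv_surj : Function.Surjective Ev :=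
    (LinearMap.injective_iff_surjective_of_finrank_eq_finrank hn2).mp hEv_inj
  rw [Fintype.linearIndependent_iff]
  intro x hx
  obtain ⟨f, hf⟩ := hEv_surj x
  have h1 : ((∑ i, x i • lam i) f).re = ∑ i, x i * x i := by
    simp only [LinearMap.sum_apply, Complex.re_sum]
    refine Finset.sum_congr rfl fun i _ => ?_
    rw [hsm]
    have : (lam i f).re = x i := congrFun hf i
    simp [this]
  rw [hx] at h1
  simp only [LinearMap.zero_apply, Complex.zero_re] at h1
  intro i
  have h2 := (Finset.sum_eq_zero_iff_of_nonneg (fun i _ => mul_self_nonneg (x i))).mp h1.symm i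
    (Finset.mem_univ i)
  exact mul_self_eq_zero.mp h2

end

end Fermat.Agent.S23
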